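import Mathlib
import Fermat.Agent.RT.Frobenius

/-!
# Lifting inertia elements of a number field to inertia at a place of `ℚ̄`
-/

set_option autoImplicit false

open scoped Pointwise NumberField

namespace FermatAgent.ExtVanish

open FermatAgent.RT

noncomputable section

local notation "Qb" => AlgebraicClosure ℚ
local notation "GQ" => AlgebraicClosure ℚ ≃ₐ[ℚ] AlgebraicClosure ℚ
local notation "ZB" => integralClosure ℤ (AlgebraicClosure ℚ)

attribute [local instance] isGalois_algClosureRat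

theorem intClosure_isIntegral : Algebra.IsIntegral ℤ ZB := integralClosure.AlgebraIsIntegral

/-- An element of the inertia group of the prime of a number field `L ⊆ ℚ̄` cut out by a given
place of `ℚ̄` extends to an element of the inertia group of that place. -/
theorem exists_inertia_lift_at {L : Type*} [Field L] [NumberField L] (i : L →ₐ[ℚ] Qb)
    {A : ValuationSubring Qb} {ℓ : ℕ} (hℓ : ℓ.Prime) (hA : A.LiesOverPrime ℓ)
    (Q : Ideal (𝓞 L)) (hQ : ∀ x : 𝓞 L, x ∈ Q ↔ i (x : L) ∈ A.nonunits)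
    (σ : L ≃ₐ[ℚ] L) (hσ : σ ∈ Q.inertia (L ≃ₐ[ℚ] L)) :
    ∃ τ ∈ A.inertiaSubgroupIn ℚ, ∀ x : L, τ (i x) = i (σ x) := by
  -- the embedding of rings of integers
  let ι : 𝓞 L →+* ZB :=
    (i.toRingHom.comp (algebraMap (𝓞 L) L)).codRestrict (integralClosure ℤ Qb).toSubring
      fun x => (NumberField.RingOfIntegers.isIntegral_coe x).map (i.restrictScalars ℤ)
  let 𝔓 : Ideal ZB := centre A
  have hcA : centre A = 𝔓 := rfl
  have h𝔓 : 𝔓.IsPrime := centre_isPrime A
  have h𝔓Q : 𝔓.comap ι = Q := Ideal.ext fun x => by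
    rw [Ideal.mem_comap, mem_centre_iff, hQ]
    rfl
  -- lift `σ`
  let : Algebra L Qb := i.toRingHom.toAlgebra
  have : IsScalarTower ℚ L Qb := IsScalarTower.of_algebraMap_eq fun q => (i.commutes q).symm
  let σ₀ : GQ := σ.liftNormal Qb
  have hσ₀ : ∀ x : L, σ₀ (i x) = i (σ x) := fun x => σ.liftNormal_commutes Qb x
  have hσ₀ι : ∀ x : 𝓞 L, σ₀ • ι x = ι (σ • x) := fun x => Subtype.ext (hσ₀ x)
  -- the Galois group of `ℚ̄` over `L`
  let H : Subgroup GQ := i.fieldRange.fixingSubgroup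
  have hHfix : ∀ g ∈ H, ∀ x : L, g (i x) = i x := fun g hg x =>
    (IntermediateField.mem_fixingSubgroup_iff _ _).mp hg _ ⟨x, rfl⟩
  have : FiniteDimensional ℚ i.fieldRange :=
    (AlgEquiv.ofInjectiveField i).toLinearEquiv.finiteDimensional
  have : CompactSpace H :=
    isCompact_iff_compactSpace.mp (IntermediateField.fixingSubgroup_isClosed _).isCompact
  let : TopologicalSpace ZB := ⊥
  have : DiscreteTopology ZB := ⟨rfl⟩
  have : ContinuousSMul GQ ZB := by
    rw [continuousSMul_iff_stabilizer_isOpen]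
    intro b
    have : FiniteDimensional ℚ (IntermediateField.adjoin ℚ {(b : Qb)}) :=
      IntermediateField.adjoin.finiteDimensional (isGalois_algClosureRat.to_normal.isIntegral _)
    refine Subgroup.isOpen_mono ?_
      (IntermediateField.fixingSubgroup_isOpen (IntermediateField.adjoin ℚ {(b : Qb)}))
    intro g hg
    exact Subtype.ext (hg ⟨b, IntermediateField.mem_adjoin_simple_self ℚ (b : Qb)⟩)
  have : ContinuousSMul H ZB := by
    rw [continuousSMul_iff_stabilizer_isOpen]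
    intro b
    exact (stabilizer_isOpen GQ b).preimage continuous_subtype_val
  let R := FixedPoints.subalgebra ℤ ZB H
  have : SMulCommClass H R ZB := ⟨fun g a b => by
    show g • ((a : ZB) * b) = (a : ZB) * g • b
    rw [smul_mul', show g • (a : ZB) = a from a.2 g]⟩
  have : Algebra.IsInvariant R ZB H := ⟨fun b hb => ⟨⟨b, hb⟩, rfl⟩⟩
  have hR : ∀ a : R, ∃ y : 𝓞 L, ι y = a := by
    intro a
    have hmem : ((a : ZB) : Qb) ∈ i.fieldRange := by
      rw [← InfiniteGalois.fixedField_fixingSubgroup (K := Qb) i.fieldRange]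
      intro g
      exact congrArg Subtype.val (a.2 g)
    obtain ⟨x, hx⟩ := hmem
    refine ⟨⟨x, ?_⟩, Subtype.ext hx⟩
    rw [mem_integralClosure_iff, ← isIntegral_algHom_iff (i.restrictScalars ℤ) i.injective]
    show IsIntegral ℤ (i x)
    rw [show i x = _ from hx]
    exact (a : ZB).2
  -- `σ₀` respects residue classes of elements of `L`
  have hcong : ∀ y : 𝓞 L, σ₀ • ι y - ι y ∈ 𝔓 := fun y => by
    rw [hσ₀ι, ← map_sub, ← Ideal.mem_comap, h𝔓Q]
    exact hσ y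
  have : (σ₀ • 𝔓).IsPrime := inferInstance
  obtain ⟨g, hg⟩ : ∃ g : H, 𝔓 = g • (σ₀ • 𝔓) := by
    refine Algebra.IsInvariant.exists_smul_of_under_eq_of_profinite (A := R) (G := H)
      (σ₀ • 𝔓) 𝔓 ?_
    ext a
    obtain ⟨y, hy⟩ := hR a
    show algebraMap R ZB a ∈ σ₀ • 𝔓 ↔ algebraMap R ZB a ∈ 𝔓
    rw [show algebraMap R ZB a = (a : ZB) from rfl, ← hy,
      show ι y = σ₀ • ι (σ⁻¹ • y) by rw [hσ₀ι, smul_inv_smul],
      Ideal.smul_mem_pointwise_smul_iff]
    exact ⟨fun h => by simpa using add_mem (hcong (σ⁻¹ • y)) h,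
      fun h => by simpa using sub_mem h (hcong (σ⁻¹ • y))⟩
  -- the induced automorphism of the residue field
  let τ₀ : GQ := (g : GQ) * σ₀
  have hτ₀ : τ₀ • 𝔓 = 𝔓 := by rw [mul_smul]; exact hg.symm
  have hτ₀i : ∀ x : L, τ₀ (i x) = i (σ x) := fun x => by
    show (g : GQ) (σ₀ (i x)) = _
    rw [hσ₀, hHfix _ g.2]
  let P : Ideal R := 𝔓.under R
  let e : (ZB ⧸ 𝔓) ≃ₐ[R ⧸ P] (ZB ⧸ 𝔓) :=
    AlgEquiv.ofRingEquiv (f := Ideal.quotientEquiv 𝔓 𝔓
        (MulSemiringAction.toRingEquiv GQ ZB τ₀) (by exact hτ₀.symm))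
      (by
        intro a
        obtain ⟨a, rfl⟩ := Ideal.Quotient.mk_surjective a
        obtain ⟨y, hy⟩ := hR a
        show Ideal.Quotient.mk 𝔓 (τ₀ • (a : ZB)) = Ideal.Quotient.mk 𝔓 (a : ZB)
        rw [Ideal.Quotient.eq, ← hy, show τ₀ • ι y = ι (σ • y) from Subtype.ext (hτ₀i y),
          ← map_sub, ← Ideal.mem_comap, h𝔓Q]
        exact hσ y)
  obtain ⟨⟨h, hh⟩, hhe⟩ := Ideal.Quotient.stabilizerHom_surjective_of_profinite (G := H) P 𝔓 e
  let τ : GQ := (h : GQ)⁻¹ * τ₀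
  have hh' : (h : GQ) • 𝔓 = 𝔓 := hh
  have hτ : τ • centre A = centre A := by
    rw [hcA, mul_smul, hτ₀, inv_smul_eq_iff]; exact hh'.symm
  have hτi : ∀ x : L, τ (i x) = i (σ x) := fun x => by
    show (h : GQ)⁻¹ (τ₀ (i x)) = _
    rw [hτ₀i, hHfix _ (H.inv_mem h.2)]
  have hres : ∀ b : ZB, τ • b - b ∈ 𝔓 := by
    intro b
    have h1 : Ideal.Quotient.mk 𝔓 ((h : GQ) • b) = Ideal.Quotient.mk 𝔓 (τ₀ • b) :=
      DFunLike.congr_fun hhe (Ideal.Quotient.mk 𝔓 b)
    rw [Ideal.Quotient.eq] at h1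
    have := Ideal.smul_mem_pointwise_smul (h : GQ)⁻¹ _ _ h1
    rw [inv_smul_eq_iff.mpr hh'.symm, smul_sub, inv_smul_smul, ← mul_smul] at this
    simpa using neg_mem this
  have hd := mem_decompositionSubgroup_of_smul_centre hℓ hA hτ
  refine ⟨τ, ⟨⟨τ, hd⟩, ?_, rfl⟩, hτi⟩
  rw [SetLike.mem_coe, ValuationSubring.inertiaSubgroup, MonoidHom.mem_ker]
  refine RingEquiv.ext fun x => ?_
  obtain ⟨⟨x, hx⟩, rfl⟩ := IsLocalRing.residue_surjective x
  show (⟨τ, hd⟩ : A.decompositionSubgroup ℚ) • IsLocalRing.residue A ⟨x, hx⟩ = _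
  rw [← IsLocalRing.ResidueField.residue_smul]
  obtain ⟨a, s, hs, hx'⟩ := exists_mul_eq_of_mem hℓ hA hx
  let φ : ZB →+* IsLocalRing.ResidueField A :=
    (IsLocalRing.residue A).comp (intClosureToPlace A)
  have hφ : ∀ b : ZB, φ (τ • b) = φ b := by
    intro b
    have : φ (τ • b - b) = 0 := (IsLocalRing.residue_eq_zero_iff _).mpr
      (show τ • b - b ∈ centre A by rw [hcA]; exact hres b)
    rwa [map_sub, sub_eq_zero] at this
  have hs0 : φ s ≠ 0 := fun h0 => hs ((IsLocalRing.residue_eq_zero_iff _).mp h0)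
  apply mul_right_cancel₀ hs0
  conv_lhs => rw [← hφ s]
  rw [RingHom.comp_apply, RingHom.comp_apply, ← map_mul, RingAut.one_apply, ← map_mul,
    show (⟨x, hx⟩ : A) * intClosureToPlace A s = intClosureToPlace A a from Subtype.ext hx',
    show ((⟨τ, hd⟩ : A.decompositionSubgroup ℚ) • ⟨x, hx⟩ : A) * intClosureToPlace A (τ • s) =
      intClosureToPlace A (τ • a) from Subtype.ext (by
        show τ x * τ (s : Qb) = τ (a : Qb)
        rw [← map_mul, hx'])]
  exact hφ a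

/-- An element of the inertia group of a prime `Q` of a number field `L ⊆ ℚ̄` extends to an
element of the inertia group of some place of `ℚ̄` above the residue characteristic of `Q`. -/
theorem exists_inertia_lift {L : Type*} [Field L] [NumberField L] (i : L →ₐ[ℚ] Qb)
    (Q : Ideal (𝓞 L)) [Q.IsPrime] (_hQ : Q ≠ ⊥) {ℓ : ℕ} (hℓ : ℓ.Prime) (hℓQ : (ℓ : 𝓞 L) ∈ Q)
    (σ : L ≃ₐ[ℚ] L) (hσ : σ ∈ Q.inertia (L ≃ₐ[ℚ] L)) :
    ∃ A : ValuationSubring Qb, A.LiesOverPrime ℓ ∧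
      ∃ τ ∈ A.inertiaSubgroupIn ℚ, ∀ x : L, τ (i x) = i (σ x) := by
  -- the embedding of rings of integers
  let ι : 𝓞 L →+* ZB :=
    (i.toRingHom.comp (algebraMap (𝓞 L) L)).codRestrict (integralClosure ℤ Qb).toSubring
      fun x => (NumberField.RingOfIntegers.isIntegral_coe x).map (i.restrictScalars ℤ)
  have hι : ∀ x : 𝓞 L, ((ι x : ZB) : Qb) = i x := fun x => rfl
  have hιinj : Function.Injective ι := fun x y h =>
    NumberField.RingOfIntegers.ext (i.injective (congrArg (Subtype.val : ZB → Qb) h))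
  obtain ⟨𝔓, h𝔓, h𝔓Q⟩ : ∃ 𝔓 : Ideal ZB, 𝔓.IsPrime ∧ 𝔓.comap ι = Q := by
    let : Algebra (𝓞 L) ZB := ι.toAlgebra
    have := intClosure_isIntegral
    have : IsScalarTower ℤ (𝓞 L) ZB := IsScalarTower.of_algebraMap_eq' (RingHom.ext_int _ _)
    have : Algebra.IsIntegral (𝓞 L) ZB := Algebra.IsIntegral.tower_top ℤ
    obtain ⟨P, -, h1, h2⟩ := Ideal.exists_ideal_over_prime_of_isIntegral Q (⊥ : Ideal ZB)
      (le_of_eq_of_le (Ideal.comap_bot_of_injective _ hιinj) bot_le)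
    exact ⟨P, h1, h2⟩
  have hℓ𝔓 : (ℓ : ZB) ∈ 𝔓 := by
    have : (ℓ : 𝓞 L) ∈ 𝔓.comap ι := by rwa [h𝔓Q]
    rwa [Ideal.mem_comap, map_natCast] at this
  obtain ⟨A, hA, hcA⟩ : ∃ A : ValuationSubring Qb, A.LiesOverPrime ℓ ∧ centre A = 𝔓 := by
    obtain ⟨B, -, hB⟩ := Ideal.image_subset_nonunits_valuationSubring
      (A := (integralClosure ℤ Qb).toSubring) (I := 𝔓) h𝔓.ne_top
    have hle : 𝔓 ≤ centre B := fun x hx => mem_centre_iff.mpr (hB ⟨x, hx, rfl⟩)
    refine ⟨B, ?_, ?_⟩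
    · have := hB ⟨(ℓ : ZB), hℓ𝔓, rfl⟩
      rwa [map_natCast] at this
    · have := intClosure_isIntegral
      have hmax : 𝔓.IsMaximal := by
        refine Ideal.isMaximal_of_isIntegral_of_isMaximal_comap (R := ℤ) 𝔓 ?_
        refine Ideal.IsPrime.isMaximal inferInstance fun h => ?_
        have : (ℓ : ℤ) ∈ Ideal.comap (algebraMap ℤ ZB) 𝔓 := by
          simpa using hℓ𝔓
        rw [h, Ideal.mem_bot] at this
        exact hℓ.ne_zero (by exact_mod_cast this)
      exact (hmax.eq_of_le (centre_isPrime B).ne_top hle).symm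
  refine ⟨A, hA, exists_inertia_lift_at i hℓ hA Q (fun x => ?_) σ hσ⟩
  rw [← h𝔓Q, ← hcA, Ideal.mem_comap, mem_centre_iff]
  rfl

end

end FermatAgent.ExtVanish
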