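import Mathlib
import Fermat.Prelude.Def_ExtCitation_AdmissibleExtension_v2
import Fermat.Prelude.Def_ExtCitation_KummerBridge

/-!
# The homomorphism on `G_{ℚ(ζ_p)}` attached to an admissible extension
-/

set_option autoImplicit false

namespace FermatAgent.ExtVanish

open ExtCitation

noncomputable section

local notation "Qb" => AlgebraicClosure ℚ
local notation "GQ" => AlgebraicClosure ℚ ≃ₐ[ℚ] AlgebraicClosure ℚ

variable {p : ℕ} [Fact p.Prime]

theorem apply_rootOfUnity_cycloExp (σ : GQ) {z : Qb} (hz : z ^ p = 1) :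
    σ z = z ^ cycloExp p σ := by
  have : NeZero p := ⟨(Fact.out : p.Prime).ne_zero⟩
  have hu : IsUnit z := IsUnit.of_pow_eq_one hz (NeZero.ne p)
  exact modularCyclotomicCharacter.spec Qb (card_rootsOfUnity_eq_self p)
    (g := (σ : Qb ≃+* Qb)) (t := hu.unit) (by rw [mem_rootsOfUnity]; ext; simpa using hz)

theorem exists_apply_eq_pow_cycloChar_eq (σ : GQ) {ζ : Qb} (hζ : IsPrimitiveRoot ζ p) {a : ℕ}
    (h : σ ζ = ζ ^ a) : (cycloChar p σ : ZMod p) = a := by
  rw [coe_cycloChar, ZMod.natCast_eq_natCast_iff']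
  have e : ζ ^ cycloExp p σ = ζ ^ a := by rw [← h, apply_rootOfUnity_cycloExp σ hζ.pow_eq_one]
  have h' := (hζ.isOfFinOrder (Fact.out : p.Prime).ne_zero).pow_inj_mod.mp e
  rwa [← hζ.eq_orderOf] at h'

variable {V : Type} [AddCommGroup V] [Module (ZMod p) V]
  [DistribMulAction GQ V] [SMulCommClass GQ (ZMod p) V]
  {C : Submodule (ZMod p) V}

omit [SMulCommClass GQ (ZMod p) V] in
theorem smul_sub_cycloChar_smul_mem (h : IsAdmissibleExtension p V C) (σ : GQ) (x : V) :
    σ • x - (cycloChar p σ : ZMod p) • x ∈ C := by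
  rw [coe_cycloChar]; exact h.cyclo_quot σ x

omit [SMulCommClass GQ (ZMod p) V] in
theorem finrank_eq_two (h : IsAdmissibleExtension p V C) :
    Module.Finite (ZMod p) V ∧ Module.finrank (ZMod p) V = 2 ∧
      Module.finrank (ZMod p) C = 1 := by
  have hp : p.Prime := Fact.out
  have : Finite V := Nat.finite_of_card_ne_zero (by rw [h.card_total]; exact pow_ne_zero _ hp.ne_zero)
  have hfin : Module.Finite (ZMod p) V := Module.Finite.of_finite
  refine ⟨hfin, Nat.pow_right_injective hp.two_le ?_, Nat.pow_right_injective hp.two_le ?_⟩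
  · have := Module.natCard_eq_pow_finrank (K := ZMod p) (V := V)
    rw [h.card_total, Nat.card_zmod] at this
    exact this.symm
  · have := Module.natCard_eq_pow_finrank (K := ZMod p) (V := C)
    rw [h.card_sub, Nat.card_zmod] at this
    show p ^ _ = p ^ 1
    rw [← this, pow_one]

omit [SMulCommClass GQ (ZMod p) V] in
/-- A vector outside `C` spans a complement of it. -/
theorem exists_generator (h : IsAdmissibleExtension p V C) :
    ∃ v₀ : V, ∀ v : V, ∃ c ∈ C, ∃ k : ZMod p, v = c + k • v₀ := by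
  obtain ⟨hfin, hV, hC⟩ := finrank_eq_two h
  have hne : C ≠ ⊤ := fun e => by
    rw [e, finrank_top] at hC
    omega
  obtain ⟨v₀, hv₀⟩ := SetLike.exists_of_lt (lt_top_iff_ne_top.mpr hne) |>.imp fun _ h => h.2
  refine ⟨v₀, fun v => ?_⟩
  have hlt : C < C ⊔ Submodule.span (ZMod p) {v₀} :=
    lt_of_le_of_ne le_sup_left fun e => hv₀ (e ▸ Submodule.mem_sup_right
      (Submodule.mem_span_singleton_self v₀))
  have htop : C ⊔ Submodule.span (ZMod p) {v₀} = ⊤ := by
    apply Submodule.eq_top_of_finrank_eq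
    have := Submodule.finrank_lt_finrank_of_lt hlt
    have := Submodule.finrank_le (C ⊔ Submodule.span (ZMod p) {v₀})
    omega
  obtain ⟨c, hc, d, hd, rfl⟩ := Submodule.mem_sup.mp (htop ▸ Submodule.mem_top : v ∈ C ⊔ _)
  obtain ⟨k, rfl⟩ := Submodule.mem_span_singleton.mp hd
  exact ⟨c, hc, k, rfl⟩

/-- If every element with trivial cyclotomic character acts trivially, the extension splits. -/
theorem splitsGlobally_of_trivial (h3 : 3 ≤ p) (h : IsAdmissibleExtension p V C)
    (htriv : ∀ σ : GQ, cycloChar p σ = 1 → ∀ v : V, σ • v = v) : SplitsGlobally C := by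
  have hp : p.Prime := Fact.out
  obtain ⟨v₀, hv₀⟩ := exists_generator h
  obtain ⟨g, hg⟩ := IsCyclic.exists_generator (α := (MonoidHom.range (cycloChar p)))
  obtain ⟨σ₀, hσ₀⟩ := g.2
  -- the cyclotomic character is not trivial
  have hg1 : (g : (ZMod p)ˣ) ≠ 1 := by
    intro hg1
    have : NeZero p := ⟨hp.ne_zero⟩
    obtain ⟨ζ, hζ⟩ := HasEnoughRootsOfUnity.exists_primitiveRoot Qb p
    have htr : ∀ σ : GQ, σ ζ = ζ := fun σ => by
      have hx := hg ⟨cycloChar p σ, σ, rfl⟩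
      rw [Subgroup.mem_zpowers_iff] at hx
      obtain ⟨k, hk⟩ := hx
      have hσ : cycloChar p σ = 1 := by
        have h' : ((g ^ k : (cycloChar p).range) : (ZMod p)ˣ) = cycloChar p σ :=
          congrArg Subtype.val hk
        rw [SubgroupClass.coe_zpow, hg1, one_zpow] at h'
        exact h'.symm
      rw [apply_rootOfUnity_cycloExp σ hζ.pow_eq_one,
        ← val_cycloChar, hσ, Units.val_one, ZMod.val_one, pow_one]
    have : IsAlgClosure ℚ Qb := AlgebraicClosure.instIsAlgClosure ℚ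
    have : IsGalois ℚ Qb := IsAlgClosure.isGalois ℚ Qb
    obtain ⟨q, hq⟩ := (InfiniteGalois.mem_range_algebraMap_iff_fixed (k := ℚ) ζ).mpr htr
    have hqp : q ^ p = 1 := (algebraMap ℚ Qb).injective (by rw [map_pow, hq, map_one, hζ.pow_eq_one])
    have hq1 : q = 1 := by
      rcases (pow_eq_one_iff_of_ne_zero hp.ne_zero).mp hqp with h | ⟨-, he⟩
      · exact h
      · exact absurd he (Nat.not_even_iff_odd.mpr (hp.odd_of_ne_two (by omega)))
    rw [hq1, map_one] at hq
    exact hζ.ne_one hp.one_lt hq.symm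
  set a : ZMod p := ((g : (ZMod p)ˣ) : ZMod p) with ha
  have ha1 : a - 1 ≠ 0 := sub_ne_zero.mpr fun e => hg1 (Units.ext e)
  set c₀ : V := σ₀ • v₀ - a • v₀ with hc₀
  have hc₀C : c₀ ∈ C := by
    rw [hc₀, ha, ← hσ₀]; exact smul_sub_cycloChar_smul_mem h σ₀ v₀
  set v₁ : V := v₀ + (a - 1)⁻¹ • c₀ with hv₁
  have hσv₁ : σ₀ • v₁ = a • v₁ := by
    rw [hv₁, smul_add, smul_comm σ₀, h.fixed_sub σ₀ c₀ hc₀C,
      show σ₀ • v₀ = a • v₀ + c₀ by rw [hc₀]; abel, smul_add, smul_smul]
    have : a * (a - 1)⁻¹ = 1 + (a - 1)⁻¹ := by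
      field_simp
      ring
    rw [this, add_smul, one_smul]
    abel
  let S : Subgroup GQ :=
    { carrier := {σ | σ • v₁ = (cycloChar p σ : ZMod p) • v₁}
      one_mem' := by simp
      mul_mem' := fun {x y} hx hy => by
        simp only [Set.mem_ofPred_eq] at hx hy ⊢
        rw [mul_smul, hy, smul_comm, hx, map_mul, Units.val_mul, smul_smul, mul_comm]
      inv_mem' := fun {x} hx => by
        simp only [Set.mem_ofPred_eq] at hx ⊢
        rw [inv_smul_eq_iff, smul_comm, hx, smul_smul, map_inv, Units.inv_mul, one_smul] }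
  have hS : ∀ σ : GQ, σ ∈ S := by
    intro σ
    obtain ⟨k, hk⟩ := Subgroup.mem_zpowers_iff.mp (hg ⟨cycloChar p σ, σ, rfl⟩)
    have hk' : cycloChar p σ = cycloChar p (σ₀ ^ k) := by
      rw [map_zpow, hσ₀]; exact (congrArg Subtype.val hk).symm
    have h1 : σ₀ ^ k ∈ S := S.zpow_mem (by
      show σ₀ • v₁ = _
      rw [hσv₁, ha, ← hσ₀]) k
    have h2 : (σ₀ ^ k)⁻¹ * σ ∈ S := by
      have hω : cycloChar p ((σ₀ ^ k)⁻¹ * σ) = 1 := by
        rw [map_mul, map_inv, ← hk', inv_mul_cancel]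
      show _ = _
      rw [hω, htriv _ hω, Units.val_one, one_smul]
    simpa using S.mul_mem h1 h2
  refine ⟨Submodule.span (ZMod p) {v₁}, fun σ x hx => ?_, ?_⟩
  · obtain ⟨k, rfl⟩ := Submodule.mem_span_singleton.mp hx
    rw [smul_comm, show σ • v₁ = _ from hS σ, smul_smul]
    exact Submodule.smul_mem _ _ (Submodule.mem_span_singleton_self v₁)
  · obtain ⟨hfin, hV, hC⟩ := finrank_eq_two h
    have htop : C ⊔ Submodule.span (ZMod p) {v₁} = ⊤ := by
      rw [eq_top_iff]
      intro v _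
      obtain ⟨c, hc, k, rfl⟩ := hv₀ v
      rw [show c + k • v₀ = (c - k • ((a - 1)⁻¹ • c₀)) + k • v₁ by
        rw [hv₁, smul_add]; abel]
      exact Submodule.add_mem_sup (C.sub_mem hc (C.smul_mem _ (C.smul_mem _ hc₀C)))
        (Submodule.smul_mem _ _ (Submodule.mem_span_singleton_self v₁))
    refine ⟨?_, codisjoint_iff.mpr htop⟩
    rw [Submodule.disjoint_def]
    intro x hxC hx
    obtain ⟨k, rfl⟩ := Submodule.mem_span_singleton.mp hx
    rcases eq_or_ne k 0 with rfl | hk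
    · exact zero_smul _ _
    · exfalso
      have : v₁ ∈ C := by simpa [smul_smul, inv_mul_cancel₀ hk] using C.smul_mem k⁻¹ hxC
      have : C = ⊤ := by
        rw [← htop, eq_comm, sup_eq_left, Submodule.span_singleton_le_iff_mem]; exact this
      rw [this, finrank_top] at hC
      omega

/-- The additive character of `ker ω` attached to an admissible extension: its kernel is the set of
elements of `ker ω` acting trivially. -/
theorem exists_hom (h : IsAdmissibleExtension p V C) :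
    ∃ φ : GQ → ZMod p,
      (∀ σ τ, cycloChar p σ = 1 → cycloChar p τ = 1 → φ (σ * τ) = φ σ + φ τ) ∧
      (∀ σ, cycloChar p σ = 1 → (φ σ = 0 ↔ ∀ v : V, σ • v = v)) ∧
      ∀ σ τ, cycloChar p σ = 1 →
        (cycloChar p τ : ZMod p) * φ (τ * σ * τ⁻¹) = φ σ := by
  obtain ⟨v₀, hv₀⟩ := exists_generator h
  obtain ⟨hfin, hV, hC⟩ := finrank_eq_two h
  let e : C ≃ₗ[ZMod p] ZMod p :=
    LinearEquiv.ofFinrankEq _ _ (by rw [hC, Module.finrank_self])
  let φ : GQ → ZMod p := fun σ => e ⟨_, smul_sub_cycloChar_smul_mem h σ v₀⟩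
  have hφ : ∀ σ, cycloChar p σ = 1 → σ • v₀ = v₀ + (e.symm (φ σ) : V) := by
    intro σ hσ
    simp only [φ, LinearEquiv.symm_apply_apply, hσ, Units.val_one, one_smul]
    abel
  have huniq : ∀ σ k, cycloChar p σ = 1 → σ • v₀ = v₀ + (e.symm k : V) → φ σ = k := by
    intro σ k hσ hk
    rw [hφ σ hσ] at hk
    exact e.symm.injective (Subtype.ext (add_left_cancel hk))
  refine ⟨φ, ?_, ?_, ?_⟩
  · intro σ τ hσ hτ
    refine huniq _ _ (by rw [map_mul, hσ, hτ, one_mul]) ?_
    rw [mul_smul, hφ τ hτ, smul_add, hφ σ hσ, h.fixed_sub σ _ (e.symm (φ τ)).2, map_add,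
      Submodule.coe_add]
    abel
  · intro σ hσ
    constructor
    · intro h0 v
      obtain ⟨c, hc, k, rfl⟩ := hv₀ v
      rw [smul_add, h.fixed_sub σ c hc, smul_comm, hφ σ hσ, h0, map_zero, Submodule.coe_zero,
        add_zero]
    · intro hv
      exact huniq σ 0 hσ (by rw [hv, map_zero, Submodule.coe_zero, add_zero])
  · intro σ τ hσ
    have hω : cycloChar p (τ * σ * τ⁻¹) = 1 := by
      rw [map_mul, map_mul, hσ, mul_one, map_inv, mul_inv_cancel]
    set u : (ZMod p)ˣ := cycloChar p τ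
    have key : φ (τ * σ * τ⁻¹) = ((u⁻¹ : (ZMod p)ˣ) : ZMod p) * φ σ := by
      refine huniq _ _ hω ?_
      have hd := smul_sub_cycloChar_smul_mem h τ⁻¹ v₀
      rw [map_inv] at hd
      set c' := τ⁻¹ • v₀ - ((u⁻¹ : (ZMod p)ˣ) : ZMod p) • v₀ with hc'
      have e1 : τ⁻¹ • v₀ = ((u⁻¹ : (ZMod p)ˣ) : ZMod p) • v₀ + c' := by rw [hc']; abel
      have e2 : τ • τ⁻¹ • v₀ = v₀ := smul_inv_smul _ _
      have e3 : (τ * σ * τ⁻¹) • v₀ =
          v₀ + ((u⁻¹ : (ZMod p)ˣ) : ZMod p) • (e.symm (φ σ) : V) := by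
        conv_rhs => rw [← e2]
        rw [mul_smul, mul_smul, e1]
        simp only [smul_add, smul_comm σ ((u⁻¹ : (ZMod p)ˣ) : ZMod p), hφ σ hσ,
          h.fixed_sub σ c' hd, smul_comm τ ((u⁻¹ : (ZMod p)ˣ) : ZMod p),
          h.fixed_sub τ _ (e.symm (φ σ)).2]
        abel
      rw [e3, ← smul_eq_mul, map_smul, Submodule.coe_smul]
    rw [key, ← mul_assoc, Units.mul_inv, one_mul]

/-- On inertia at every place and with trivial cyclotomic character, the action is trivial. -/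
theorem smul_eq_self_of_mem_inertia (h : IsAdmissibleExtension p V C) {ℓ : ℕ} (hℓ : ℓ.Prime)
    {A : ValuationSubring Qb} (hA : A.LiesOverPrime ℓ) {σ : GQ}
    (hσ : σ ∈ A.inertiaSubgroupIn ℚ) (hω : cycloChar p σ = 1) (v : V) : σ • v = v := by
  by_cases hℓp : ℓ = p
  · subst hℓp
    obtain ⟨C', hC', hcompl⟩ := h.locally_split A hA
    have hd : σ ∈ A.decompositionSubgroup ℚ := by
      obtain ⟨⟨τ, hτ⟩, -, rfl⟩ := hσ
      exact hτ
    obtain ⟨c, hc, d, hd', rfl⟩ := Submodule.mem_sup.mp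
      (hcompl.sup_eq_top ▸ Submodule.mem_top : v ∈ C ⊔ C')
    have h1 := smul_sub_cycloChar_smul_mem h σ d
    rw [hω, Units.val_one, one_smul] at h1
    have h2 : σ • d - d = 0 := by
      have := Submodule.mem_inf.mpr ⟨h1, C'.sub_mem (hC' σ hd d hd') hd'⟩
      rwa [hcompl.inf_eq_bot, Submodule.mem_bot] at this
    rw [smul_add, h.fixed_sub σ c hc, sub_eq_zero.mp h2]
  · exact h.unramified_outside ℓ hℓ hℓp A hA σ hσ v

end

end FermatAgent.ExtVanish
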