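import Mathlib
import Fermat.Prelude.Def_Stickelberger_Basic

/-!
# Stickelberger relation in the `ω⁻¹` component, via the Jacobi sum `J(χ, χ)`

A homomorphism from the class group of `ℚ(ζ_p)` to a group of exponent `p` on which the Galois
group acts through the inverse cyclotomic character is trivial. Primes of residue characteristic
`ℓ ≢ 1 (mod p)` are killed by equivariance alone; for split primes we use that the ideal
generated by `J(χ, χ)` is `∏_{0 < c < p/2} σ_c⁻¹ P`.
-/

set_option autoImplicit false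

namespace FermatAgent.ExtVanish

open NumberField Stickelberger IsCyclotomicExtension.Rat
open scoped nonZeroDivisors Pointwise

section Finset

variable {p : ℕ}

lemma exponentSet_eq_Icc (hp : Odd p) : exponentSet p = Finset.Icc 1 (p / 2) := by
  ext c
  simp only [mem_exponentSet, Finset.mem_Icc]
  obtain ⟨k, rfl⟩ := hp
  omega

lemma eight_mul_eigenvalueScalar (hp : Odd p) : 8 * eigenvalueScalar p + 1 = p * p := by
  obtain ⟨k, hk⟩ := hp
  rw [eigenvalueScalar, exponentSet_eq_Icc ⟨k, hk⟩, show p / 2 = k by omega]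
  subst hk
  have : ∀ n : ℕ, 2 * ∑ c ∈ Finset.Icc 1 n, c = n * (n + 1) := by
    intro n
    induction n with
    | zero => simp
    | succ n ih => rw [Finset.sum_Icc_succ_top (by omega), mul_add, ih]; ring
  nlinarith [this k]

end Finset

section CharCongr

variable {F : Type*} [Field F] [Fintype F] {R : Type*} [CommRing R]

/-- If every value `χ x` reduces to `x ^ n`, then the Jacobi sum `J(χ, χ)` reduces to zero as soon
as `2 n < #F - 1`. -/
lemma map_jacobiSum_eq_zero (χ : MulChar F R) (red : R →+* F) (n : ℕ)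
    (hχ : ∀ x, red (χ x) = x ^ n) (hn : 2 * n < Fintype.card F - 1) :
    red (jacobiSum χ χ) = 0 := by
  simp only [jacobiSum, map_sum, map_mul, hχ]
  have h : ∀ x : F, x ^ n * (1 - x) ^ n =
      ((Polynomial.X * (1 - Polynomial.X)) ^ n : Polynomial F).eval x := by
    intro x; simp [mul_pow]
  simp only [h, Polynomial.eval_eq_sum_range]
  rw [Finset.sum_comm]
  refine Finset.sum_eq_zero fun i hi => ?_
  rw [← Finset.mul_sum, FiniteField.sum_pow_lt_card_sub_one, mul_zero]
  have h2 : (((Polynomial.X : Polynomial F) * (1 - Polynomial.X)) ^ n).natDegree ≤ 2 * n := by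
    refine Polynomial.natDegree_pow_le.trans ?_
    rw [mul_comm 2]
    refine Nat.mul_le_mul_left _ (Polynomial.natDegree_mul_le.trans ?_)
    have := Polynomial.natDegree_sub_le (1 : Polynomial F) Polynomial.X
    simp only [Polynomial.natDegree_one, Polynomial.natDegree_X] at this ⊢
    omega
  simp only [Finset.mem_range] at hi
  omega

end CharCongr

section Main

variable {p : ℕ} [Fact p.Prime] (K : Type*) [Field K] [NumberField K]
  [IsCyclotomicExtension {p} ℚ K]

/-- The automorphism `ζ ↦ ζ ^ c`. -/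
noncomputable def sigmaAut (c : ℕ) : K ≃ₐ[ℚ] K :=
  (galEquivZMod p K).symm (expUnit p c)

variable {K}

lemma galEquivZMod_sigmaAut {c : ℕ} (hc : c ∈ exponentSet p) :
    ((galEquivZMod p K (sigmaAut (p := p) K c) : (ZMod p)ˣ) : ZMod p) = c := by
  have hcop : Nat.Coprime c p := by
    rw [mem_exponentSet] at hc
    exact ((Fact.out : p.Prime).coprime_iff_not_dvd.mpr
      (Nat.not_dvd_of_pos_of_lt hc.1 (by omega))).symm
  rw [sigmaAut, MulEquiv.apply_symm_apply, expUnit, dif_pos hcop, ZMod.coe_unitOfCoprime]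

/-- A multiplicative character of the residue field of a degree one prime, with values in the
`p`-th roots of unity, congruent to `x ↦ x ^ m` with `m p = ℓ - 1`. -/
lemma exists_mulChar_congr (P : Ideal (𝓞 K)) [P.IsMaximal] [Fintype (𝓞 K ⧸ P)] {m : ℕ}
    (hm : 0 < m) (hcard : m * p = Fintype.card (𝓞 K ⧸ P) - 1) (hne : Nat.Coprime P.absNorm p) :
    letI := Ideal.Quotient.field P
    ∃ χ : MulChar (𝓞 K ⧸ P) (𝓞 K),
      (∀ x, Ideal.Quotient.mk P (χ x) = x ^ m) ∧ χ ^ p = 1 := by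
  let := Ideal.Quotient.field P
  classical
  have hζ := (IsCyclotomicExtension.zeta_spec p ℚ K).toInteger_isPrimitiveRoot
  set z := (IsCyclotomicExtension.zeta_spec p ℚ K).toInteger with hz
  have hzbar : IsPrimitiveRoot (Ideal.Quotient.mk P z) p :=
    hζ.idealQuotient_mk (by simpa using Ideal.IsMaximal.ne_top ‹_›) hne
  obtain ⟨g, hg⟩ := IsCyclic.exists_generator (α := (𝓞 K ⧸ P)ˣ)
  have hgm : ((g : 𝓞 K ⧸ P) ^ m) ^ p = 1 := by
    rw [← pow_mul, hcard, FiniteField.pow_card_sub_one_eq_one _ g.ne_zero]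
  obtain ⟨j, -, hj⟩ := hzbar.eq_pow_of_pow_eq_one hgm
  have hzu : IsUnit z := hζ.isUnit (Fact.out : p.Prime).ne_zero
  have hmem : hzu.unit ^ j ∈ rootsOfUnity (Fintype.card (𝓞 K ⧸ P)ˣ) (𝓞 K) := by
    rw [mem_rootsOfUnity, Fintype.card_units, ← hcard]
    ext
    rw [Units.val_pow_eq_pow_val, Units.val_pow_eq_pow_val, IsUnit.unit_spec, ← pow_mul,
      mul_comm j, mul_comm m, mul_assoc, pow_mul, hζ.pow_eq_one, one_pow, Units.val_one]
  refine ⟨MulChar.ofRootOfUnity hmem hg, ?_, ?_⟩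
  · intro x
    rcases eq_or_ne x 0 with rfl | hx
    · rw [MulChar.map_zero, map_zero, zero_pow hm.ne']
    lift x to (𝓞 K ⧸ P)ˣ using isUnit_iff_ne_zero.mpr hx
    obtain ⟨i, rfl⟩ := mem_powers_iff_mem_zpowers.mpr (hg x)
    rw [Units.val_pow_eq_pow_val, map_pow, map_pow, MulChar.ofRootOfUnity_spec hmem hg,
      Units.val_pow_eq_pow_val, IsUnit.unit_spec, map_pow, hj, ← pow_mul, ← pow_mul, mul_comm i]
  · rw [MulChar.eq_one_iff]
    intro x
    obtain ⟨i, rfl⟩ := mem_powers_iff_mem_zpowers.mpr (hg x)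
    rw [MulChar.pow_apply_coe, Units.val_pow_eq_pow_val, map_pow,
      MulChar.ofRootOfUnity_spec hmem hg, Units.val_pow_eq_pow_val, IsUnit.unit_spec,
      ← pow_mul, ← pow_mul, hζ.pow_eq_one_iff_dvd]
    exact dvd_mul_of_dvd_right (dvd_mul_left p i) j

lemma absNorm_span_smul (σ : K ≃ₐ[ℚ] K) (x : 𝓞 K) :
    Ideal.absNorm (Ideal.span {σ • x}) = Ideal.absNorm (Ideal.span {x}) := by
  rw [Ideal.absNorm_span_singleton, Ideal.absNorm_span_singleton]
  congr 1
  apply Int.cast_injective (α := ℚ)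
  rw [Algebra.coe_norm_int, Algebra.coe_norm_int]
  exact Algebra.norm_eq_of_algEquiv σ (x : K)

/-- **Stickelberger's relation** in the form needed for Ext vanishing: a homomorphism from the
class group of `ℚ(ζ_p)` to a group of exponent `p`, transforming by `ω⁻¹`, is trivial. -/
theorem classGroupHom_eq_one_of_omegaInv (hp : 3 ≤ p) {G : Type*} [CommGroup G]
    (hG : ∀ g : G, g ^ p = 1) (f : ClassGroup (𝓞 K) →* G)
    (hf : ∀ (σ : K ≃ₐ[ℚ] K) (a : ℕ), ((galEquivZMod p K σ : (ZMod p)ˣ) : ZMod p) = a →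
      ∀ P P' : (Ideal (𝓞 K))⁰, (P : Ideal (𝓞 K)).IsPrime →
        (P' : Ideal (𝓞 K)) = σ • (P : Ideal (𝓞 K)) →
        f (ClassGroup.mk0 P') ^ a = f (ClassGroup.mk0 P)) :
    f = 1 := by
  classical
  have hpp : p.Prime := Fact.out
  have hcop : ∀ {x : G} {n : ℕ}, ¬ p ∣ n → x ^ n = 1 → x = 1 := by
    intro x n hn hx
    have h1 := orderOf_dvd_of_pow_eq_one hx
    rcases (Nat.dvd_prime hpp).mp (orderOf_dvd_of_pow_eq_one (hG x)) with h | h
    · exact orderOf_eq_one_iff.mp h
    · exact absurd (h ▸ h1) hn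
  have key : ∀ P : (Ideal (𝓞 K))⁰, (P : Ideal (𝓞 K)).IsPrime → f (ClassGroup.mk0 P) = 1 := by
    intro P hP
    have hP0 : (P : Ideal (𝓞 K)) ≠ ⊥ := mem_nonZeroDivisors_iff_ne_zero.mp P.2
    have := hP
    have hPmax : (P : Ideal (𝓞 K)).IsMaximal := hP.isMaximal hP0
    obtain ⟨ℓ, hℓ, hPℓ⟩ : ∃ ℓ : ℕ, ℓ.Prime ∧
        (P : Ideal (𝓞 K)).LiesOver (Ideal.span {(ℓ : ℤ)}) := by
      obtain ⟨n, hn⟩ := (IsPrincipalIdealRing.principal ((P : Ideal (𝓞 K)).under ℤ)).principal
      have hne : (P : Ideal (𝓞 K)).under ℤ ≠ ⊥ := Ideal.under_ne_bot ℤ hP0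
      have hn0 : n ≠ 0 := by rintro rfl; exact hne (by simpa using hn)
      have hnp : Prime n := by
        have := (inferInstance : ((P : Ideal (𝓞 K)).under ℤ).IsPrime)
        rw [hn, ← Ideal.span, Ideal.span_singleton_prime hn0] at this
        exact this
      refine ⟨n.natAbs, Int.prime_iff_natAbs_prime.mp hnp, ⟨?_⟩⟩
      rw [hn, Int.span_natAbs]
    have := Fact.mk hℓ
    by_cases hℓp : ℓ = p
    · subst hℓp
      have : ClassGroup.mk0 P = 1 := by
        rw [ClassGroup.mk0_eq_one_iff]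
        exact ⟨⟨_, eq_span_zeta_sub_one_of_liesOver' ℓ K
          (IsCyclotomicExtension.zeta_spec ℓ ℚ K) (P : Ideal (𝓞 K))⟩⟩
      rw [this, map_one]
    have hn : ℓ.Coprime p := (Nat.coprime_primes hℓ hpp).mpr hℓp
    have hn' : ¬ ℓ ∣ p := (Nat.Prime.coprime_iff_not_dvd hℓ).mp hn
    by_cases hℓ1 : (ℓ : ZMod p) = 1
    swap
    · obtain ⟨σ, hσ, hσu⟩ : ∃ σ ∈ MulAction.stabilizer (K ≃ₐ[ℚ] K) (P : Ideal (𝓞 K)),
          galEquivZMod p K σ = ZMod.unitOfCoprime ℓ hn := by
        have h := galEquivZMod_stabilizer p K ℓ (P : Ideal (𝓞 K)) hn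
        have : ZMod.unitOfCoprime ℓ hn ∈
            (galEquivZMod p K).mapSubgroup (MulAction.stabilizer (K ≃ₐ[ℚ] K)
              (P : Ideal (𝓞 K))) := h ▸ Subgroup.mem_zpowers _
        exact Subgroup.mem_map.mp this
      have := hf σ ℓ (by rw [hσu, ZMod.coe_unitOfCoprime]) P P hP hσ.symm
      refine hcop (n := ℓ - 1) (fun hd => hℓ1 ?_) ?_
      · have : ((ℓ - 1 : ℕ) : ZMod p) = 0 := (ZMod.natCast_eq_zero_iff _ _).mpr hd
        rwa [Nat.cast_sub hℓ.one_le, Nat.cast_one, sub_eq_zero] at this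
      · rw [← Nat.succ_pred_eq_of_pos hℓ.pos, pow_succ] at this
        exact mul_eq_right.mp this
    -- split primes
    have hfdeg : ∀ Q : Ideal (𝓞 K), Q.IsMaximal → Q.LiesOver (Ideal.span {(ℓ : ℤ)}) →
        Ideal.absNorm Q = ℓ := by
      intro Q _ _
      rw [← Ideal.pow_inertiaDeg ℓ, inertiaDeg_eq_of_not_dvd ℓ K Q hn', hℓ1, orderOf_one, pow_one]
    have hnormP : Ideal.absNorm (P : Ideal (𝓞 K)) = ℓ := hfdeg _ hPmax hPℓ
    let := Ideal.Quotient.field (P : Ideal (𝓞 K))
    have : Finite (𝓞 K ⧸ (P : Ideal (𝓞 K))) :=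
      Ideal.finiteQuotientOfFreeOfNeBot _ hP0
    let := Fintype.ofFinite (𝓞 K ⧸ (P : Ideal (𝓞 K)))
    have hcardF : Fintype.card (𝓞 K ⧸ (P : Ideal (𝓞 K))) = ℓ := by
      rw [Fintype.card_eq_nat_card, ← Submodule.cardQuot_apply, ← Ideal.absNorm_apply, hnormP]
    obtain ⟨m, hm⟩ : p ∣ ℓ - 1 := by
      rw [← ZMod.natCast_eq_zero_iff, Nat.cast_sub hℓ.one_le, hℓ1, Nat.cast_one, sub_self]
    have hm0 : 0 < m := by
      rcases Nat.eq_zero_or_pos m with rfl | h
      · have := hℓ.one_lt; omega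
      · exact h
    obtain ⟨χ, hχ, hχp⟩ := exists_mulChar_congr (P : Ideal (𝓞 K)) hm0
      (by rw [hcardF, mul_comm, ← hm]) (by rw [hnormP]; exact hn)
    have hχ1 : χ * χ ≠ 1 := by
      intro h
      obtain ⟨g, hg⟩ := IsCyclic.exists_ofOrder_eq_natCard
        (α := (𝓞 K ⧸ (P : Ideal (𝓞 K)))ˣ)
      have := congrArg (Ideal.Quotient.mk (P : Ideal (𝓞 K))) (congrArg (fun ψ => ψ (g : _)) h)
      simp only [MulChar.mul_apply, map_mul, hχ, MulChar.one_apply_coe, map_one, ← pow_add] at this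
      rw [← Units.val_pow_eq_pow_val, Units.val_eq_one, ← orderOf_dvd_iff_pow_eq_one, hg,
        Nat.card_units, Nat.card_eq_fintype_card, hcardF, hm] at this
      have := Nat.le_of_dvd (by omega) this
      nlinarith
    have hχne : χ ≠ 1 := fun h => hχ1 (by rw [h, one_mul])
    set J := jacobiSum χ χ with hJ
    -- the automorphism `ζ ↦ ζ⁻¹`
    set τ := (galEquivZMod p K).symm (-1) with hτ
    have hval : ∀ x : 𝓞 K ⧸ (P : Ideal (𝓞 K)), x ≠ 0 → (χ x) ^ p = 1 := fun x hx => by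
      rw [← MulChar.pow_apply' χ hpp.ne_zero, hχp, MulChar.one_apply (isUnit_iff_ne_zero.mpr hx)]
    have hσJ : ∀ σ : K ≃ₐ[ℚ] K, σ • J =
        jacobiSum (χ ^ (galEquivZMod p K σ : ZMod p).val) (χ ^ (galEquivZMod p K σ : ZMod p).val) := by
      intro σ
      have hne : (galEquivZMod p K σ : ZMod p).val ≠ 0 := by
        simp [ZMod.val_eq_zero]
      rw [hJ, jacobiSum, jacobiSum, Finset.smul_sum]
      refine Finset.sum_congr rfl fun x _ => ?_
      rw [smul_mul', MulChar.pow_apply' _ hne, MulChar.pow_apply' _ hne]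
      congr 1
      · rcases eq_or_ne x 0 with rfl | hx
        · rw [MulChar.map_zero, smul_zero, zero_pow hne]
        · exact galEquivZMod_smul_of_pow_eq p K σ (hval x hx)
      · rcases eq_or_ne (1 - x) 0 with h0 | hx
        · rw [h0, MulChar.map_zero, smul_zero, zero_pow hne]
        · exact galEquivZMod_smul_of_pow_eq p K σ (hval _ hx)
    have hinv : χ⁻¹ = χ ^ ((-1 : ZMod p)).val := by
      rw [inv_eq_iff_mul_eq_one, ← pow_succ',
        show (-1 : ZMod p).val + 1 = p by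
          obtain ⟨k, rfl⟩ := Nat.exists_eq_succ_of_ne_zero hpp.ne_zero
          rw [ZMod.val_neg_one],
        hχp]
    have hJJ : J * τ • J = (ℓ : 𝓞 K) := by
      apply FaithfulSMul.algebraMap_injective (𝓞 K) K
      rw [hσJ, hτ, MulEquiv.apply_symm_apply, Units.val_neg, Units.val_one, ← hinv, map_mul,
        map_natCast, hJ, ← jacobiSum_ringHomComp, ← jacobiSum_ringHomComp,
        ← MulChar.ringHomComp_inv]
      have hinj := FaithfulSMul.algebraMap_injective (𝓞 K) K
      rw [jacobiSum_mul_jacobiSum_inv ?_ ((MulChar.ringHomComp_ne_one_iff hinj).mpr hχne)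
        ((MulChar.ringHomComp_ne_one_iff hinj).mpr hχne) ?_, hcardF]
      · rw [ringChar.eq_zero]
        exact (CharP.ringChar_ne_zero_of_finite (𝓞 K ⧸ (P : Ideal (𝓞 K)))).symm
      · rw [← MulChar.ringHomComp_mul]
        exact (MulChar.ringHomComp_ne_one_iff hinj).mpr hχ1
    -- the conjugates containing `J`
    let Q : ℕ → Ideal (𝓞 K) := fun c => (sigmaAut (p := p) K c)⁻¹ • (P : Ideal (𝓞 K))
    have hQ0 : ∀ c, Q c ≠ ⊥ := fun c h => hP0 (by
      have h' := congrArg (sigmaAut (p := p) K c • ·) h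
      simp only [Q, smul_inv_smul, Ideal.smul_bot] at h'
      exact h')
    have hQmax : ∀ c, (Q c).IsMaximal := fun c =>
      (inferInstance : ((sigmaAut (p := p) K c)⁻¹ • (P : Ideal (𝓞 K))).IsPrime).isMaximal (hQ0 c)
    have hQℓ : ∀ c, (Q c).LiesOver (Ideal.span {(ℓ : ℤ)}) := fun c => by
      simp only [Q]; infer_instance
    have hJQ : ∀ c ∈ exponentSet p, J ∈ Q c := by
      intro c hc
      rw [Ideal.mem_pointwise_smul_iff_inv_smul_mem, inv_inv, ← Ideal.Quotient.eq_zero_iff_mem,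
        hσJ, galEquivZMod_sigmaAut hc, ZMod.val_natCast_of_lt
          (by rw [mem_exponentSet] at hc; omega)]
      rw [mem_exponentSet] at hc
      refine map_jacobiSum_eq_zero _ _ (m * c) (fun x => ?_) ?_
      · rw [MulChar.pow_apply' _ (by omega : c ≠ 0), map_pow, hχ, ← pow_mul]
      · rw [hcardF, hm]
        nlinarith
    have hinjQ : Set.InjOn Q (exponentSet p : Set ℕ) := by
      intro c hc d hd h
      simp only [Finset.mem_coe] at hc hd
      have hs : sigmaAut (p := p) K c * (sigmaAut (p := p) K d)⁻¹ ∈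
          MulAction.stabilizer (K ≃ₐ[ℚ] K) (P : Ideal (𝓞 K)) := by
        rw [MulAction.mem_stabilizer_iff, mul_smul, show (sigmaAut (p := p) K d)⁻¹ •
          (P : Ideal (𝓞 K)) = (sigmaAut (p := p) K c)⁻¹ • (P : Ideal (𝓞 K)) from h.symm,
          smul_inv_smul]
      have := mem_zpowers_galEquivZMod_of_mem_stabilizer p K ℓ (P : Ideal (𝓞 K)) hn hs
      have h1 : ZMod.unitOfCoprime ℓ hn = 1 := by ext; simp [hℓ1]
      rw [h1, Subgroup.zpowers_one_eq_bot, Subgroup.mem_bot, map_mul, map_inv, mul_inv_eq_one]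
        at this
      have := congrArg (fun u : (ZMod p)ˣ => (u : ZMod p).val) this
      simp only [galEquivZMod_sigmaAut hc, galEquivZMod_sigmaAut hd] at this
      rw [mem_exponentSet] at hc hd
      rwa [ZMod.val_natCast_of_lt (by omega), ZMod.val_natCast_of_lt (by omega)] at this
    have hdvd : (∏ c ∈ exponentSet p, Q c) ∣ Ideal.span {J} := by
      refine Finset.prod_dvd_of_coprime (fun c hc d hd hcd => ?_) fun c hc => ?_
      · rw [Function.onFun, Ideal.isCoprime_iff_sup_eq]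
        exact (hQmax c).coprime_of_ne (hQmax d) fun h => hcd (hinjQ hc hd h)
      · rw [Ideal.dvd_span_singleton]; exact hJQ c hc
    have hA : Ideal.absNorm (∏ c ∈ exponentSet p, Q c) = ℓ ^ (exponentSet p).card := by
      rw [map_prod, Finset.prod_congr rfl fun c _ => hfdeg (Q c) (hQmax c) (hQℓ c),
        Finset.prod_const]
    have hodd : Odd p := hpp.odd_of_ne_two (by omega)
    have hcardE : (exponentSet p).card * 2 = p - 1 := by
      rw [exponentSet_eq_Icc hodd, Nat.card_Icc]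
      obtain ⟨k, rfl⟩ := hodd
      omega
    have hJnorm : Ideal.absNorm (Ideal.span {J}) = ℓ ^ (exponentSet p).card := by
      refine Nat.pow_left_injective (two_ne_zero) ?_
      simp only
      rw [← pow_mul, hcardE, sq]
      nth_rw 2 [← absNorm_span_smul τ J]
      rw [← map_mul, Ideal.span_singleton_mul_span_singleton, hJJ, Ideal.absNorm_span_singleton,
        show (ℓ : 𝓞 K) = algebraMap ℤ (𝓞 K) ℓ by simp, Algebra.norm_algebraMap,
        RingOfIntegers.rank, IsCyclotomicExtension.Rat.finrank p K, Nat.totient_prime hpp,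
        Int.natAbs_pow, Int.natAbs_natCast]
    obtain ⟨X, hX⟩ := hdvd
    have hXtop : X = ⊤ := by
      rw [← Ideal.absNorm_eq_one_iff]
      have := congrArg Ideal.absNorm hX
      rw [map_mul, hA, hJnorm] at this
      exact (mul_eq_left₀ (pow_ne_zero _ hℓ.ne_zero)).mp this.symm
    rw [hXtop, Ideal.mul_top] at hX
    -- apply `f`
    let Q' : ℕ → (Ideal (𝓞 K))⁰ := fun c => ⟨Q c,
      mem_nonZeroDivisors_iff_ne_zero.mpr (hQ0 c)⟩
    have h1 : f (ClassGroup.mk0 (∏ c ∈ exponentSet p, Q' c)) = 1 := by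
      rw [(ClassGroup.mk0_eq_one_iff _).mpr ?_, map_one]
      rw [Submonoid.coe_finsetProd]
      exact ⟨⟨J, hX.symm⟩⟩
    refine hcop (n := eigenvalueScalar p) (fun hd => ?_) ?_
    · have := eight_mul_eigenvalueScalar hodd
      have h : p ∣ 8 * eigenvalueScalar p + 1 := this ▸ dvd_mul_right p p
      exact hpp.not_dvd_one ((Nat.dvd_add_right (dvd_mul_of_dvd_right hd 8)).mp h)
    rw [← h1, eigenvalueScalar, map_prod, map_prod, ← Finset.prod_pow_eq_pow_sum]
    refine Finset.prod_congr rfl fun c hc => ?_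
    exact hf (sigmaAut (p := p) K c) c (galEquivZMod_sigmaAut hc) (Q' c) P
      (hQmax c).isPrime (by simp [Q', Q])
  ext C
  obtain ⟨I, rfl⟩ := ClassGroup.mk0_surjective C
  rw [MonoidHom.one_apply]
  obtain ⟨I, hI⟩ := I
  induction I using UniqueFactorizationMonoid.induction_on_prime with
  | h₁ => exact absurd hI (by simp)
  | h₂ x hx =>
    have : x = 1 := by rwa [Ideal.isUnit_iff, ← Ideal.one_eq_top] at hx
    subst this
    exact (congrArg f (ClassGroup.mk0.map_one)).trans f.map_one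
  | h₃ I q hI0 hq ih =>
    have hI' : I ∈ (Ideal (𝓞 K))⁰ := mem_nonZeroDivisors_iff_ne_zero.mpr hI0
    have hq' : q ∈ (Ideal (𝓞 K))⁰ := mem_nonZeroDivisors_iff_ne_zero.mpr hq.ne_zero
    have e : (⟨q * I, hI⟩ : (Ideal (𝓞 K))⁰) = ⟨q, hq'⟩ * ⟨I, hI'⟩ := rfl
    rw [e, map_mul, map_mul, key ⟨q, hq'⟩ (Ideal.isPrime_of_prime hq), ih hI', mul_one]

end Main

end FermatAgent.ExtVanish
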