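import Mathlib
import Fermat.Agent.CFT.ArtinUnramified
import Fermat.Agent.ExtVanish.Cocycle
import Fermat.Agent.ExtVanish.InertiaLift
import Fermat.Agent.ExtVanish.Stickelberger

/-!
# An admissible extension gives an unramified `ω⁻¹`-extension of `ℚ(ζ_p)`, hence splits
-/

set_option autoImplicit false

namespace FermatAgent.ExtVanish

open ExtCitation NumberField IntermediateField
open scoped nonZeroDivisors Pointwise

noncomputable section

local notation "Qb" => AlgebraicClosure ℚ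
local notation "GQ" => AlgebraicClosure ℚ ≃ₐ[ℚ] AlgebraicClosure ℚ

attribute [local instance] FermatAgent.RT.isGalois_algClosureRat

variable {p : ℕ} [Fact p.Prime]

theorem cycloChar_eq_one_iff {ζ : Qb} (hζ : IsPrimitiveRoot ζ p) (σ : GQ) :
    cycloChar p σ = 1 ↔ σ ζ = ζ := by
  constructor
  · intro h
    rw [apply_rootOfUnity_cycloExp σ hζ.pow_eq_one, ← val_cycloChar, h, Units.val_one,
      ZMod.val_one, pow_one]
  · intro h
    refine Units.ext ?_
    rw [exists_apply_eq_pow_cycloChar_eq σ hζ (a := 1) (by rw [pow_one, h]), Nat.cast_one,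
      Units.val_one]

theorem mem_fixingSubgroup_adjoin_iff (σ : GQ) (ζ : Qb) :
    σ ∈ (adjoin ℚ {ζ}).fixingSubgroup ↔ σ ζ = ζ := by
  constructor
  · intro h
    exact (IntermediateField.mem_fixingSubgroup_iff _ _).mp h ζ (mem_adjoin_simple_self ℚ ζ)
  · intro h
    rw [← Subgroup.zpowers_le, ← IntermediateField.le_iff_le, adjoin_simple_le_iff]
    rintro ⟨g, hg⟩
    obtain ⟨k, rfl⟩ := Subgroup.mem_zpowers_iff.mp hg
    exact MulAction.mem_stabilizer_iff.mp
      ((MulAction.stabilizer GQ ζ).zpow_mem (show σ ∈ _ from h) k)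

theorem absNorm_smul {K : Type*} [Field K] [NumberField K] (σ : K ≃ₐ[ℚ] K) (P : Ideal (𝓞 K)) :
    Nat.card (𝓞 K ⧸ σ • P) = Nat.card (𝓞 K ⧸ P) :=
  (Nat.card_congr (Ideal.quotientEquiv P (σ • P)
    (MulSemiringAction.toRingEquiv _ (𝓞 K) σ) rfl).toEquiv).symm

variable {V : Type} [AddCommGroup V] [Module (ZMod p) V]
  [DistribMulAction GQ V] [SMulCommClass GQ (ZMod p) V]
  {C : Submodule (ZMod p) V}

/-- The Galois-theoretic core: elements with trivial cyclotomic character act trivially. -/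
theorem smul_eq_self_of_cycloChar_eq_one (h3 : 3 ≤ p) (h : IsAdmissibleExtensionCts p V C)
    (σ₁ : GQ) (hσ₁ : cycloChar p σ₁ = 1) (v : V) : σ₁ • v = v := by
  classical
  have hp : p.Prime := Fact.out
  have : NeZero p := ⟨hp.ne_zero⟩
  obtain ⟨φ, hadd, hker, hconj⟩ := exists_hom h.toIsAdmissibleExtension
  by_contra hv
  have hφσ₁ : φ σ₁ ≠ 0 := fun e => hv ((hker σ₁ hσ₁).mp e v)
  obtain ⟨ζ, hζ⟩ := HasEnoughRootsOfUnity.exists_primitiveRoot Qb p
  let K : IntermediateField ℚ Qb := adjoin ℚ {ζ}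
  have : IsCyclotomicExtension {p} ℚ K := hζ.intermediateField_adjoin_isCyclotomicExtension (K := ℚ)
  have : FiniteDimensional ℚ K := IsCyclotomicExtension.finiteDimensional {p} ℚ K
  have : NumberField K := ⟨⟩
  have : IsGalois ℚ K := IsCyclotomicExtension.isGalois {p} ℚ K
  have : Normal ℚ K := IsGalois.to_normal
  have hKω : ∀ σ : GQ, σ ∈ K.fixingSubgroup ↔ cycloChar p σ = 1 := fun σ =>
    (mem_fixingSubgroup_adjoin_iff σ ζ).trans (cycloChar_eq_one_iff hζ σ).symm
  -- the kernel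
  let N : Subgroup GQ :=
    { carrier := {σ | (∀ v : V, σ • v = v) ∧ σ ∈ K.fixingSubgroup}
      one_mem' := ⟨fun v => one_smul _ v, one_mem _⟩
      mul_mem' := fun ha hb => ⟨fun v => by rw [mul_smul, hb.1, ha.1], mul_mem ha.2 hb.2⟩
      inv_mem' := fun ha => ⟨fun v => by rw [inv_smul_eq_iff, ha.1], inv_mem ha.2⟩ }
  have hNo : IsOpen (N : Set GQ) :=
    h.open_kernel.inter (IntermediateField.fixingSubgroup_isOpen K)
  have hNn : N.Normal := ⟨fun n hn g => by
    refine ⟨fun v => ?_, (hKω _).mpr ?_⟩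
    · rw [mul_smul, mul_smul, hn.1, smul_inv_smul]
    · rw [map_mul, map_mul, (hKω n).mp hn.2, mul_one, map_inv, mul_inv_cancel]⟩
  let L : IntermediateField ℚ Qb := fixedField N
  have hLN : L.fixingSubgroup = N :=
    InfiniteGalois.fixingSubgroup_fixedField ⟨N, N.isClosed_of_isOpen hNo⟩
  have : FiniteDimensional ℚ L := (InfiniteGalois.isOpen_iff_finite L).mp (hLN ▸ hNo)
  have : IsGalois ℚ L := (InfiniteGalois.normal_iff_isGalois L).mp (hLN ▸ hNn)
  have : NumberField L := ⟨⟩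
  have hKL : K ≤ L := (IntermediateField.le_iff_le _ _).mpr fun σ hσ => hσ.2
  let : Algebra K L := (inclusion hKL).toRingHom.toAlgebra
  have : IsScalarTower ℚ K L := IsScalarTower.of_algebraMap_eq fun _ => rfl
  have : IsGalois K L := IsGalois.tower_top_of_isGalois ℚ K L
  let res : GQ →* (L ≃ₐ[ℚ] L) := AlgEquiv.restrictNormalHom L
  have hres : ∀ (σ : GQ) (x : L), ((res σ x : L) : Qb) = σ x := fun σ x =>
    AlgEquiv.restrictNormalHom_apply L σ x
  have hsurj : Function.Surjective res := AlgEquiv.restrictNormalHom_surjective Qb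
  -- lifts of `Gal(L/K)`
  let lift : (L ≃ₐ[K] L) → GQ := fun g => (hsurj (g.restrictScalars ℚ)).choose
  have hlift : ∀ g x, lift g ((x : L) : Qb) = (g x : L) := fun g x => by
    rw [← hres, (hsurj (g.restrictScalars ℚ)).choose_spec]
    rfl
  have hliftω : ∀ g, cycloChar p (lift g) = 1 := fun g => by
    rw [cycloChar_eq_one_iff hζ]
    have := hlift g (algebraMap K L ⟨ζ, mem_adjoin_simple_self ℚ ζ⟩)
    rw [g.commutes] at this
    exact this
  have hdep : ∀ σ τ : GQ, cycloChar p σ = 1 → cycloChar p τ = 1 →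
      (∀ x : L, σ x = τ x) → φ σ = φ τ := by
    intro σ τ hσ hτ hx
    have hn : τ⁻¹ * σ ∈ N := by
      rw [← hLN, IntermediateField.mem_fixingSubgroup_iff]
      intro x hxL
      rw [AlgEquiv.mul_apply, hx ⟨x, hxL⟩]
      exact τ.symm_apply_apply x
    have hn1 : cycloChar p (τ⁻¹ * σ) = 1 := (hKω _).mp hn.2
    rw [show σ = τ * (τ⁻¹ * σ) by group, hadd _ _ hτ hn1, (hker _ hn1).mpr hn.1, add_zero]
  let Φ : (L ≃ₐ[K] L) →* Multiplicative (ZMod p) :=
    MonoidHom.mk' (fun g => Multiplicative.ofAdd (φ (lift g))) fun g g' => by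
      rw [← ofAdd_add, ← hadd _ _ (hliftω g) (hliftω g')]
      refine congrArg _ (hdep _ _ (hliftω _) ?_ fun x => ?_)
      · rw [map_mul, hliftω, hliftω, one_mul]
      · rw [AlgEquiv.mul_apply, hlift, hlift, hlift, AlgEquiv.mul_apply]
  have hΦinj : Function.Injective Φ := by
    rw [injective_iff_map_eq_one]
    intro g hg
    have h0 : φ (lift g) = 0 := congrArg Multiplicative.toAdd hg
    have hmem : lift g ∈ N := ⟨(hker _ (hliftω g)).mp h0, (hKω _).mpr (hliftω g)⟩
    rw [← hLN] at hmem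
    ext x
    rw [AlgEquiv.one_apply, ← hlift]
    exact (IntermediateField.mem_fixingSubgroup_iff _ _).mp hmem _ x.2
  -- `σ₁` restricted to `L`
  let g₁ : L ≃ₐ[K] L := AlgEquiv.ofRingEquiv (f := (res σ₁).toRingEquiv) fun k => by
    apply Subtype.ext
    show ((res σ₁ (algebraMap K L k) : L) : Qb) = _
    rw [hres]
    exact (IntermediateField.mem_fixingSubgroup_iff _ _).mp ((hKω σ₁).mpr hσ₁) _ k.2
  have hΦg₁ : Φ g₁ ≠ 1 := fun e => hφσ₁ (by
    rw [hdep σ₁ (lift g₁) hσ₁ (hliftω _) fun x => by rw [hlift, ← hres]; rfl]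
    exact congrArg Multiplicative.toAdd e)
  have hΦsurj : Function.Surjective Φ := by
    rw [← MonoidHom.range_eq_top]
    have hcard : (Nat.card (Multiplicative (ZMod p))).Prime := by
      rw [Nat.card_congr Multiplicative.toAdd, Nat.card_zmod]; exact hp
    have : Fact (Nat.card (Multiplicative (ZMod p))).Prime := ⟨hcard⟩
    rcases Subgroup.eq_bot_or_eq_top_of_prime_card Φ.range with e | e
    · exact absurd (Subgroup.mem_bot.mp (e ▸ ⟨g₁, rfl⟩ : Φ g₁ ∈ (⊥ : Subgroup _))) hΦg₁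
    · exact e
  have hdeg : Module.finrank K L = p := by
    rw [← IsGalois.card_aut_eq_finrank, Nat.card_eq_of_bijective Φ ⟨hΦinj, hΦsurj⟩,
      Nat.card_congr Multiplicative.toAdd, Nat.card_zmod]
  have hK : Module.finrank ℚ K < p := by
    rw [IsCyclotomicExtension.Rat.finrank p K, Nat.totient_prime hp]
    omega
  -- unramified everywhere
  have hunr : ∀ Q : Ideal (𝓞 L), Q.IsPrime → Q ≠ ⊥ → Q.inertia (L ≃ₐ[K] L) = ⊥ := by
    intro Q hQ hQ0
    rw [Subgroup.eq_bot_iff_forall]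
    intro g hg
    obtain ⟨n, hn⟩ := (IsPrincipalIdealRing.principal (Q.under ℤ)).principal
    have hn0 : n ≠ 0 := by
      rintro rfl
      exact Ideal.under_ne_bot ℤ hQ0 (by simpa using hn)
    have hnp : Prime n := by
      have := (inferInstance : (Q.under ℤ).IsPrime)
      rw [hn, ← Ideal.span, Ideal.span_singleton_prime hn0] at this
      exact this
    have hℓQ : ((n.natAbs : ℕ) : 𝓞 L) ∈ Q := by
      have h1 : ((n.natAbs : ℕ) : ℤ) ∈ Q.under ℤ := by
        rw [hn]; exact Ideal.mem_span_singleton.mpr (Int.dvd_natAbs.mpr dvd_rfl)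
      rwa [Ideal.under_def, Ideal.mem_comap, map_natCast] at h1
    obtain ⟨A, hA, τ, hτ, hτg⟩ := exists_inertia_lift L.val Q hQ0
      (Int.prime_iff_natAbs_prime.mp hnp) hℓQ (g.restrictScalars ℚ) (fun x => hg x)
    have hωτ : cycloChar p τ = 1 := by
      rw [cycloChar_eq_one_iff hζ]
      have := hτg (algebraMap K L ⟨ζ, mem_adjoin_simple_self ℚ ζ⟩)
      rw [AlgEquiv.restrictScalars_apply, g.commutes] at this
      exact this
    have hmem : τ ∈ N := ⟨smul_eq_self_of_mem_inertia h.toIsAdmissibleExtension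
      (Int.prime_iff_natAbs_prime.mp hnp) hA hτ hωτ, (hKω _).mpr hωτ⟩
    rw [← hLN] at hmem
    ext x
    rw [AlgEquiv.one_apply]
    exact (hτg x).symm.trans ((IntermediateField.mem_fixingSubgroup_iff _ _).mp hmem _ x.2)
  obtain ⟨f, hfs, hf⟩ := FermatAgent.CFT.exists_artinMap K L (p := p) (by omega) hK hdeg hunr
  have hf1 : Φ.comp f = 1 := by
    refine classGroupHom_eq_one_of_omegaInv (K := K) h3
      (fun g => by rw [← ofAdd_toAdd g, ← ofAdd_nsmul, CharP.cast_eq_zero_iff (ZMod p) p p |>.mpr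
        dvd_rfl |> fun e => show p • g.toAdd = 0 by rw [nsmul_eq_mul, e, zero_mul], ofAdd_zero])
      (Φ.comp f) ?_
    intro σK a ha P P' hP hPP'
    have hP0 : (P : Ideal (𝓞 K)) ≠ ⊥ := mem_nonZeroDivisors_iff_ne_zero.mp P.2
    have hnK : Normal ℚ K := IsGalois.to_normal
    obtain ⟨τ, hτσ⟩ := @AlgEquiv.restrictNormalHom_surjective ℚ _ K _ _ Qb _ _ _ _ hnK _ σK
    have hτK : ∀ k : K, τ k = (σK k : K) := fun k => by
      rw [← hτσ]
      exact (AlgEquiv.restrictNormal_commutes τ K k).symm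
    have hωτ : (cycloChar p τ : ZMod p) = a := by
      rw [← ha, exists_apply_eq_pow_cycloChar_eq τ hζ
        (a := (IsCyclotomicExtension.Rat.galEquivZMod p K σK : ZMod p).val) ?_,
        ZMod.natCast_zmod_val]
      have hz : (⟨ζ, mem_adjoin_simple_self ℚ ζ⟩ : K) ^ p = 1 :=
        Subtype.ext hζ.pow_eq_one
      have := hτK ⟨ζ, mem_adjoin_simple_self ℚ ζ⟩
      rw [IsCyclotomicExtension.Rat.galEquivZMod_apply_of_pow_eq p K σK hz] at this
      exact this
    obtain ⟨Q, -, hQ, hQP⟩ := Ideal.exists_ideal_over_prime_of_isIntegral (P : Ideal (𝓞 K))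
      (⊥ : Ideal (𝓞 L)) (by
        rw [Ideal.comap_bot_of_injective _ (FaithfulSMul.algebraMap_injective (𝓞 K) (𝓞 L))]
        exact bot_le)
    have hQ0 : Q ≠ ⊥ := fun e => hP0 (by
      rw [← hQP, e]; exact Ideal.comap_bot_of_injective _ (FaithfulSMul.algebraMap_injective _ _))
    let t : L ≃ₐ[ℚ] L := res τ
    have htK : ∀ k : 𝓞 K, t • algebraMap (𝓞 K) (𝓞 L) k = algebraMap (𝓞 K) (𝓞 L) (σK • k) := by
      intro k
      apply RingOfIntegers.ext
      apply Subtype.ext
      show ((t (algebraMap K L (k : K)) : L) : Qb) = _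
      rw [hres]
      exact hτK k
    let Q' : Ideal (𝓞 L) := t • Q
    have hQ' : Q'.IsPrime := inferInstance
    have hQ'0 : Q' ≠ ⊥ := fun e => hQ0 (by
      have := congrArg (t⁻¹ • ·) e
      simpa [Q', inv_smul_smul] using this)
    have hQ'P : Q'.under (𝓞 K) = (P' : Ideal (𝓞 K)) := by
      ext k
      rw [Ideal.under_def, Ideal.mem_comap, hPP', Ideal.mem_pointwise_smul_iff_inv_smul_mem,
        Ideal.mem_pointwise_smul_iff_inv_smul_mem, ← hQP, Ideal.mem_comap]
      rw [show t⁻¹ • algebraMap (𝓞 K) (𝓞 L) k = algebraMap (𝓞 K) (𝓞 L) (σK⁻¹ • k) by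
        rw [inv_smul_eq_iff, htK, smul_inv_smul]]
    set F := f (ClassGroup.mk0 P) with hFdef
    set F' := f (ClassGroup.mk0 P') with hF'def
    have hF := hf Q P hQ hQ0 hQP
    have hF' := hf Q' P' hQ' hQ'0 hQ'P
    -- the conjugate of `F`
    let G : L ≃ₐ[K] L := AlgEquiv.ofRingEquiv
      (f := (t * F.restrictScalars ℚ * t⁻¹ : L ≃ₐ[ℚ] L).toRingEquiv) fun k => by
      show t (F (t⁻¹ (algebraMap K L k))) = _
      have hk : t⁻¹ (algebraMap K L k) = algebraMap K L (σK⁻¹ k) := by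
        apply t.injective
        rw [show t (t⁻¹ (algebraMap K L k)) = _ from t.apply_symm_apply _]
        apply Subtype.ext
        rw [hres]
        exact (congrArg (fun z : K => (z : Qb)) (σK.apply_symm_apply k)).symm.trans (hτK _).symm
      rw [hk, F.commutes, ← hk]
      exact t.apply_symm_apply _
    have hG : IsArithFrobAt (𝓞 K) G Q' := by
      intro x
      have hN : Nat.card (𝓞 K ⧸ Q'.under (𝓞 K)) = Nat.card (𝓞 K ⧸ Q.under (𝓞 K)) := by
        rw [hQ'P, hPP', absNorm_smul, ← hQP]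
      rw [hN, Ideal.mem_pointwise_smul_iff_inv_smul_mem, smul_sub, smul_pow']
      have key := hF (t⁻¹ • x)
      rw [MulSemiringAction.toAlgHom_apply] at key ⊢
      rwa [show t⁻¹ • G • x = F • t⁻¹ • x by
        rw [inv_smul_eq_iff]; exact RingOfIntegers.ext rfl]
    have hF'G : F' = G := by
      have := hF'.mul_inv_mem_inertia hG
      rw [hunr Q' hQ' hQ'0, Subgroup.mem_bot, mul_inv_eq_one] at this
      exact this
    show Φ F' ^ a = Φ F
    have hωG : cycloChar p (τ * lift F * τ⁻¹) = 1 := by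
      rw [map_mul, map_mul, hliftω, mul_one, map_inv, mul_inv_cancel]
    have hφG : φ (lift F') = φ (τ * lift F * τ⁻¹) := by
      refine hdep _ _ (hliftω _) hωG fun x => ?_
      rw [hlift, hF'G, AlgEquiv.mul_apply, AlgEquiv.mul_apply,
        show τ⁻¹ (x : Qb) = ((t⁻¹ x : L) : Qb) by
          rw [show t⁻¹ = res τ⁻¹ from (map_inv res τ).symm, hres],
        hlift, ← hres]
      rfl
    show Multiplicative.ofAdd (φ (lift F')) ^ a = Multiplicative.ofAdd (φ (lift F))
    rw [← ofAdd_nsmul, nsmul_eq_mul, hφG, ← hωτ, hconj _ _ (hliftω F)]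
  obtain ⟨c, hc⟩ := hfs g₁
  exact hΦg₁ (hc ▸ DFunLike.congr_fun hf1 c)

/-- `ExtVanishingCts p` for every prime `p ≥ 3`. -/
theorem extVanishingCts (h3 : 3 ≤ p) : ExtCitation.ExtVanishingCts p := by
  intro V _ _ _ _ C hC
  exact splitsGlobally_of_trivial h3 hC.toIsAdmissibleExtension
    (smul_eq_self_of_cycloChar_eq_one h3 hC)

end

end FermatAgent.ExtVanish
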